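/-
S15lib / Kum / Mt1  (helper2)  — Project E.

`Desc.Mt1Stmt` (the kernel of reduction at `A ∣ r` in the Eisenstein part of `J[r]` is of
multiplicative type, odd `r`) from the Weil pairing of `S15lib/Weil` and two statements:

* `IsoStmt`   — (L1) of ORD (helper5): `VE p r 1 ⊓ kerRed p A` is isotropic for `weilPair r`;
* `NondegStmt` — the Weil pairing is nondegenerate on `VE p r 1` (helper9's (W2) + (W3)).

Proof: `x ∈ X := VE₁ ∩ ker red_A`, `y ∈ VE₁`, `σ ∈ I_A` with `σ = (·)^a` on `μ_r`: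
`e(σx, σy) = σ e(x,y) = e(x,y)^a`; `σy - y ∈ X` (C0) and `σx ∈ X`, so `e(σx, σy) = e(σx, y)`;
hence `e(σx - a x, y) = 1` for all `y ∈ VE₁` and `σx = a x`.
-/
import Mathlib
import Fermat.Agent.S15lib.Desc.Basic
import Fermat.Agent.S15lib.Weil.Modular

set_option autoImplicit false
set_option linter.style.haveILetI false
set_option linter.unusedSectionVars false

noncomputable section

namespace Fermat.Agent.S15lib.Kum

open Fermat.Agent.S15lib Fermat.Agent.S15lib.Desc Fermat.Agent.S15lib.Weil ModularCurve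

local notation "Qb" => AlgebraicClosure ℚ
local notation "GQ" => (AlgebraicClosure ℚ ≃ₐ[ℚ] AlgebraicClosure ℚ)

/-- **(L1)** of ORD: the kernel of reduction in the Eisenstein part of `J[r]` is isotropic for the
Weil pairing.  Owner: helper5. -/
def IsoStmt : Prop :=
  ∀ {p : ℕ} (hp : p.Prime) (_hp' : p ∉ ({2, 3, 5, 7, 13} : Finset ℕ))
    {r : ℕ} (_hr : r.Prime) (_hrp : r ≠ p)
    (A : ValuationSubring Qb) (_hA : A.LiesOverPrime r),
    haveI : NeZero p := ⟨hp.ne_zero⟩
    ∀ x ∈ VE p r 1 ⊓ kerRed p A, ∀ y ∈ VE p r 1 ⊓ kerRed p A, weilPair r x y = 1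

/-- the Weil pairing is nondegenerate on the Eisenstein part of `J[r]`.  Owner: helper9 (W2) +
(W3) + the decomposition `J[r] = VE₁ ⊕ VN₁`. -/
def NondegStmt : Prop :=
  ∀ {p : ℕ} (hp : p.Prime) (_hp' : p ∉ ({2, 3, 5, 7, 13} : Finset ℕ))
    {r : ℕ} (_hr : r.Prime) (_hrp : r ≠ p),
    haveI : NeZero p := ⟨hp.ne_zero⟩
    ∀ x ∈ VE p r 1, (∀ y ∈ VE p r 1, weilPair r x y = 1) → x = 0

section

variable {p : ℕ} [NeZero p]

theorem weilPair_nsmul_left {m : ℕ} {x y : JZero p} (hx : m • x = 0) (hy : m • y = 0) (a : ℕ) :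
    weilPair m (a • x) y = weilPair m x y ^ a := by
  induction a with
  | zero => rw [zero_nsmul, pow_zero, weilPair_zero_left hy]
  | succ a ih =>
    have ha : m • (a • x) = 0 := by rw [smul_comm, hx, smul_zero]
    rw [succ_nsmul, weilPair_add_left ha hx hy, ih, pow_succ]

end

/-- **`Mt1Stmt` from the isotropy and the nondegeneracy** -/
theorem mt1_of_pairing (hIso : IsoStmt) (hND : NondegStmt) : Mt1Stmt := by
  intro p hp hp' r hr hrp _ A hA
  haveI : NeZero p := ⟨hp.ne_zero⟩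
  intro σ hσ a ha x hx
  have hxVE : x ∈ VE p r 1 := hx.1
  have hxK : x ∈ kerRed p A := hx.2
  have htor : ∀ {z : JZero p}, z ∈ VE p r 1 → r • z = 0 := by
    intro z hz
    have := hz.1
    rwa [pow_one] at this
  have hred := inertiaRedStmt hp hr hrp A hA
  -- `σ x ∈ X`
  have hσxVE : σ • x ∈ VE p r 1 := smul_mem_VE σ hxVE
  have hσxK : σ • x ∈ kerRed p A := by
    show reductionModL A p (σ • x) = 0
    rw [hred σ hσ x]
    exact hxK
  -- the key identity
  have hkey : ∀ y ∈ VE p r 1, weilPair r (σ • x) y = weilPair r x y ^ a := by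
    intro y hy
    have hσyVE : σ • y ∈ VE p r 1 := smul_mem_VE σ hy
    have hd : σ • y - y ∈ VE p r 1 ⊓ kerRed p A := by
      refine ⟨(VE p r 1).sub_mem hσyVE hy, ?_⟩
      show reductionModL A p (σ • y - y) = 0
      rw [map_sub, hred σ hσ y, sub_self]
    have h1 : weilPair r (σ • x) (σ • y) = weilPair r x y ^ a := by
      rw [weilPair_galois p (htor hxVE) (htor hy) σ]
      exact ha _ (weilPair_pow (htor hxVE) (htor hy))
    have h2 : weilPair r (σ • x) (σ • y) = weilPair r (σ • x) y := by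
      have h3 : σ • y = y + (σ • y - y) := by abel
      rw [h3, weilPair_add_right (htor hσxVE) (htor hy) (htor hd.1),
        hIso hp hp' hr hrp A hA (σ • x) ⟨hσxVE, hσxK⟩ (σ • y - y) hd, mul_one]
    rw [← h2, h1]
  -- nondegeneracy
  have haxVE : a • x ∈ VE p r 1 := (VE p r 1).nsmul_mem hxVE a
  have hzVE : σ • x - a • x ∈ VE p r 1 := (VE p r 1).sub_mem hσxVE haxVE
  have hz : σ • x - a • x = 0 := by
    refine hND hp hp' hr hrp _ hzVE fun y hy => ?_
    have h1 : σ • x = (σ • x - a • x) + a • x := by abel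
    have h2 := hkey y hy
    rw [h1, weilPair_add_left (htor hzVE) (htor haxVE) (htor hy),
      weilPair_nsmul_left (htor hxVE) (htor hy)] at h2
    have h3 : weilPair r x y ^ a ≠ 0 := pow_ne_zero _ (weilPair_ne_zero r x y)
    exact mul_right_cancel₀ h3 (by rw [h2, one_mul])
  exact sub_eq_zero.1 hz

end Fermat.Agent.S15lib.Kum
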