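/-
S15lib / Kum / LocNGlue  (helper2)  — Project E.

`Desc.LocNTameStmt` and `Desc.LocNUnipStmt` from helper4's `S15lib/LocN/Tors.lean`
(`exists_tame_generator_tors`, `unipTors`), with `W = J₀(p)[r^K]` (finite: `S19lib.T.finite_tors`).
-/
import Mathlib
import Fermat.Agent.S15lib.Desc.Iface
import Fermat.Agent.S15lib.LocN.Tors
import Fermat.Agent.S19lib.T.Tors

set_option autoImplicit false
set_option linter.style.haveILetI false

noncomputable section

namespace Fermat.Agent.S15lib.Kum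

open Fermat.Agent.S15lib Fermat.Agent.S19lib ModularCurve Fermat.Agent.S29lib

local notation "Qb" => AlgebraicClosure ℚ
local notation "GQ" => (AlgebraicClosure ℚ ≃ₐ[ℚ] AlgebraicClosure ℚ)

theorem mem_Tors_of_nsmul {N : ℕ} [NeZero N] {n : ℕ} {x : JZero N} (h : n • x = 0) :
    x ∈ Tors N n := by
  rw [Submodule.mem_torsionBy_iff, natCast_zsmul]
  exact h

theorem nsmul_of_mem_Tors {N : ℕ} [NeZero N] {n : ℕ} {x : JZero N} (h : x ∈ Tors N n) :
    n • x = 0 := by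
  rw [Submodule.mem_torsionBy_iff, natCast_zsmul] at h
  exact h

/-- **(LOCN-unip)** -/
theorem locNUnipStmt : Desc.LocNUnipStmt := by
  intro p hp _ r hr hrp K A hA
  haveI : NeZero p := ⟨hp.ne_zero⟩
  intro σ hσ x hx
  have hp2 : ¬ p ^ 2 ∣ p := by
    intro h
    have h1 : p ^ 2 ≤ p := Nat.le_of_dvd hp.pos h
    nlinarith [hp.two_le]
  exact LocN.unipTors p r hr p hp (Ne.symm hrp) dvd_rfl hp2 A hA σ hσ K x (mem_Tors_of_nsmul hx)

/-- **(LOCN-tame)** -/
theorem locNTameStmt : Desc.LocNTameStmt := by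
  intro p hp r hr hrp K A hA
  haveI : NeZero p := ⟨hp.ne_zero⟩
  have hp2 : ¬ p ^ 2 ∣ p := by
    intro h
    have h1 : p ^ 2 ≤ p := Nat.le_of_dvd hp.pos h
    nlinarith [hp.two_le]
  let W : AddSubgroup (JZero p) := Desc.tors p (r ^ K)
  have hWmem : ∀ x : JZero p, x ∈ W ↔ r ^ K • x = 0 := fun x => by
    show x ∈ (nsmulAddMonoidHom (α := JZero p) (r ^ K)).ker ↔ _
    rw [AddMonoidHom.mem_ker]
    rfl
  have hW : ∀ (σ : GQ) (x : JZero p), x ∈ W → σ • x ∈ W := by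
    intro σ x hx
    rw [hWmem] at hx ⊢
    have h1 : σ • (r ^ K • x) = r ^ K • (σ • x) :=
      (DistribSMul.toAddMonoidHom (JZero p) σ).map_nsmul (r ^ K) x
    rw [← h1, hx]
    exact (DistribSMul.toAddMonoidHom (JZero p) σ).map_zero
  have hk : ∀ x ∈ W, x ∈ Tors p (r ^ K) := fun x hx => mem_Tors_of_nsmul ((hWmem x).1 hx)
  haveI : Finite W := by
    have hm : (((r ^ K : ℕ) : ℤ)) ≠ 0 := by
      exact_mod_cast pow_ne_zero K hr.ne_zero
    have hfin := T.finite_tors p ((r ^ K : ℕ) : ℤ) hm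
    refine (hfin.subset fun x hx => ?_).to_subtype
    show x ∈ tors p ((r ^ K : ℕ) : ℤ)
    rw [T.mem_tors_iff, natCast_zsmul]
    exact (hWmem x).1 hx
  obtain ⟨τ, hτ, h⟩ := LocN.exists_tame_generator_tors hp hr (Ne.symm hrp) dvd_rfl hp2 hA W hW hk
  refine ⟨τ, hτ, fun σ hσ => ?_⟩
  obtain ⟨j, hj⟩ := h σ hσ
  exact ⟨j, fun x hx => hj x ((hWmem x).2 hx)⟩

end Fermat.Agent.S15lib.Kum
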