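/-
S15lib / Kum / Main  (helper2)  — Project E, block KUM.

The two statements of `S15lib/Desc/Iface.lean` owned by KUM:

* `contStmt : Desc.ContStmt`   — every point of `J₀(p)(ℚ̄)` has an open stabiliser
  (`S29lib.GH.finiteLevel_fix_class`);
* `kumMStmt : Desc.KumMStmt`   — the flat condition at `r` on `μ_r`-pieces (`Kum/Flat/Main.lean`).
-/
import Mathlib
import Fermat.Agent.S15lib.Desc.Iface
import Fermat.Agent.S15lib.Kum.Flat.Main
import Fermat.Agent.S19lib.T.Tors
import Fermat.Agent.S29lib.GH.OpenStab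

set_option autoImplicit false
set_option linter.style.haveILetI false

noncomputable section

namespace Fermat.Agent.S15lib.Kum

open Fermat.Agent.S15lib Fermat.Agent.S19lib ModularCurve

local notation "Qb" => AlgebraicClosure ℚ
local notation "GQ" => (AlgebraicClosure ℚ ≃ₐ[ℚ] AlgebraicClosure ℚ)

/-- **(CONT)** -/
theorem contStmt : Desc.ContStmt := by
  intro p hp
  haveI : NeZero p := ⟨hp.ne_zero⟩
  intro z
  obtain ⟨L, hL, h⟩ := Fermat.Agent.S29lib.GH.finiteLevel_fix_class p z
  refine ⟨L, hL, fun s hs => h s fun y hy => ?_⟩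
  exact (IntermediateField.mem_fixingSubgroup_iff L s).1 hs y hy

/-- Hecke polynomials commute with the Galois action -/
theorem heckeRing_galois {p : ℕ} [NeZero p] {e : AddMonoid.End (JZero p)} (he : e ∈ heckeRing p)
    (σ : GQ) (z : JZero p) : e (σ • z) = σ • e z := by
  induction he using Subring.closure_induction generalizing z with
  | mem T hT =>
    obtain ⟨q, -, rfl⟩ := hT
    exact Fermat.Agent.S29lib.GH.TJ_galois p q σ z
  | zero => exact (smul_zero σ).symm
  | one => rfl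
  | add a b _ _ iha ihb =>
    show a (σ • z) + b (σ • z) = σ • (a z + b z)
    rw [iha, ihb, smul_add]
  | neg a _ iha =>
    show -(a (σ • z)) = σ • (-(a z))
    rw [iha, smul_neg]
  | mul a b _ _ iha ihb =>
    show a (b (σ • z)) = σ • a (b z)
    rw [ihb, iha]

/-- **(KUM-M)** the flat condition at `r` -/
theorem kumMStmt : Desc.KumMStmt := by
  intro p hp _ r hr hrp K
  haveI : NeZero p := ⟨hp.ne_zero⟩
  haveI : Fact r.Prime := ⟨hr⟩
  intro e he _ _ W W' _ hW'VE _ hW'st φ hφmul _ hφker hφeq h _ hval A hA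
  have hrN : ¬ r ∣ p := fun hd => hrp ((Nat.prime_dvd_prime_iff_eq hr hp).1 hd)
  have hfin : (W' : Set (JZero p)).Finite := by
    have hm : ((r : ℤ) ^ K) ≠ 0 := pow_ne_zero _ (by exact_mod_cast hr.ne_zero)
    refine (T.finite_tors p ((r : ℤ) ^ K) hm).subset fun x hx => ?_
    have h1 : r ^ K • x = 0 := (hW'VE hx).1
    show x ∈ tors p ((r : ℤ) ^ K)
    rw [T.mem_tors_iff]
    have h2 : ((r : ℤ) ^ K) = ((r ^ K : ℕ) : ℤ) := by push_cast; rfl
    rw [h2, natCast_zsmul]
    exact h1
  have hφ1 : φ 0 = 1 := (hφker 0 W'.zero_mem).2 W.zero_mem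
  have hkum : ∀ σ : GQ, Desc.kum p e h σ = σ • e h - e h := by
    intro σ
    show e (σ • h - h) = σ • e h - e h
    rw [map_sub, heckeRing_galois he]
  obtain ⟨β, hβ, hβσ⟩ := exists_unit_eigen_jzero hrN A hA W' hfin (fun σ _ => hW'st σ) φ hφ1
    hφmul (fun σ _ => hφeq σ) (e h) (fun σ _ => by rw [← hkum]; exact hval σ)
  refine ⟨β, hβ, fun σ hσ => ?_⟩
  rw [hkum]
  exact hβσ σ hσ

end Fermat.Agent.S15lib.Kum
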